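import Fermat.Agent.Petersson.Hecke

/-!
The Hecke algebra generated by the `T_p` with `p ∤ N` consists of self-adjoint operators, hence is
reduced.
-/

set_option autoImplicit false

open UpperHalfPlane ModularForm
open scoped MatrixGroups

namespace Fermat.Agent.Petersson

variable {N : ℕ} [NeZero N] {k : ℤ} {S : Set ℕ}

theorem pet_zero_right {F : ℍ → ℂ} (hF : CuspLike k F) : pet k F 0 = 0 := by
  have := pet_smul_right hF (CuspLike.zero k) 0
  simpa using this

/-- Every element of the Hecke algebra away from the level is self-adjoint. -/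
theorem pet_heckeAlgebra (hS : ∀ q : ℕ, q.Prime → q ∣ N → q ∈ S)
    {t : Module.End ℂ (CuspForm (CongruenceSubgroup.Gamma0 N) k)}
    (ht : t ∈ CuspForm.heckeAlgebra N k S)
    (f g : CuspForm (CongruenceSubgroup.Gamma0 N) k) :
    pet k (t f) g = pet k f (t g) := by
  have key : ∀ t ∈ CuspForm.heckeAlgebra N k S, (∀ f g : CuspForm (CongruenceSubgroup.Gamma0 N) k,
      pet k (t f) g = pet k f (t g)) := by
    intro t ht
    induction ht using Algebra.adjoin_induction with
    | mem x hx =>
      intro f g
      rcases hx with ⟨ℓ, hℓ, hℓN, hℓS, rfl⟩ | ⟨q, hqN, hq, hqS, rfl⟩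
      · exact pet_heckeT hℓ hℓN f g
      · exact absurd (hS q hq hqN) hqS
    | algebraMap r =>
      intro f g
      have hf := CuspLike.of_cuspForm f
      have hg := CuspLike.of_cuspForm g
      have e : ∀ f : CuspForm (CongruenceSubgroup.Gamma0 N) k,
          (⇑((algebraMap ℤ (Module.End ℂ (CuspForm (CongruenceSubgroup.Gamma0 N) k)) r) f) : ℍ → ℂ)
            = (r : ℂ) • (⇑f : ℍ → ℂ) := by
        intro f
        rw [algebraMap_int_eq, eq_intCast, Module.End.intCast_apply]
        ext τ
        simp
      rw [e, e, pet_smul_left hf hg, pet_smul_right hf hg]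
      simp
    | add x y hx hy ihx ihy =>
      intro f g
      have hf := CuspLike.of_cuspForm f
      have hg := CuspLike.of_cuspForm g
      have hxf := CuspLike.of_cuspForm (x f)
      have hyf := CuspLike.of_cuspForm (y f)
      have hxg := CuspLike.of_cuspForm (x g)
      have hyg := CuspLike.of_cuspForm (y g)
      rw [LinearMap.add_apply, LinearMap.add_apply, FunLike.coe_add, FunLike.coe_add,
        pet_add_left hxf hyf hg, pet_add_right hf hxg hyg, ihx, ihy]
    | mul x y hx hy ihx ihy =>
      intro f g
      have hcomm : x * y = y * x := by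
        have := (CuspForm.heckeAlgebra.instIsMulCommutative N k S).is_comm.comm
          (⟨x, hx⟩ : CuspForm.heckeAlgebra N k S) ⟨y, hy⟩
        exact congrArg Subtype.val this
      have h1 : (x * y) f = x (y f) := rfl
      have h2 : (x * y) g = y (x g) := by rw [hcomm]; rfl
      rw [h1, h2, ihx, ihy]
  exact key t ht f g

/-- The Hecke algebra away from the level is reduced. -/
theorem isReduced_heckeAlgebra (hS : ∀ q : ℕ, q.Prime → q ∣ N → q ∈ S) :
    IsReduced (CuspForm.heckeAlgebra N k S) := by
  rw [isReduced_iff_pow_one_lt 2 one_lt_two]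
  intro t ht
  apply Subtype.ext
  refine LinearMap.ext fun f => ?_
  have h1 : (t : Module.End ℂ (CuspForm (CongruenceSubgroup.Gamma0 N) k))
      ((t : Module.End ℂ (CuspForm (CongruenceSubgroup.Gamma0 N) k)) f) = 0 := by
    have := congrArg Subtype.val ht
    have h2 : ((t : Module.End ℂ (CuspForm (CongruenceSubgroup.Gamma0 N) k)) ^ 2) f = 0 := by
      have h3 : ((t ^ 2 : CuspForm.heckeAlgebra N k S) :
        Module.End ℂ (CuspForm (CongruenceSubgroup.Gamma0 N) k)) = 0 := this
      rw [SubmonoidClass.coe_pow] at h3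
      rw [h3]; rfl
    rw [pow_two] at h2
    exact h2
  have h2 := pet_heckeAlgebra hS t.2 f ((t : Module.End ℂ _) f)
  rw [h1] at h2
  have hf := CuspLike.of_cuspForm f
  have htf := CuspLike.of_cuspForm ((t : Module.End ℂ _) f)
  have h3 : pet k ⇑((t : Module.End ℂ _) f) ⇑((t : Module.End ℂ _) f) = 0 := by
    rw [h2]
    exact pet_zero_right hf
  have h4 := eq_zero_of_pet_self htf h3
  exact DFunLike.coe_injective h4

end Fermat.Agent.Petersson
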