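import Fermat.Agent.Petersson.SL2Weight

/-!
The normalised invariant mean of bounded measurable functions on the upper half-plane which are
invariant under some arithmetic subgroup.
-/

set_option autoImplicit false

open MeasureTheory ENNReal UpperHalfPlane ModularGroup
open scoped MatrixGroups Modular Pointwise

namespace Fermat.Agent.Petersson

/-- Bounded measurable functions invariant under an arithmetic subgroup. -/
structure ArithInv (F : ℍ → ℂ) : Prop where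
  measurable : Measurable F
  bounded : ∃ C : ℝ, ∀ τ, ‖F τ‖ ≤ C
  invariant : ∃ Γ : Subgroup (GL (Fin 2) ℝ), Γ.IsArithmetic ∧ ∀ γ ∈ Γ, ∀ τ, F (γ • τ) = F τ

theorem ratio_eq_of_same {Γ : Subgroup (GL (Fin 2) ℝ)} [Γ.IsArithmetic] {w w' : ℍ → ℝ≥0∞}
    {c c' : ℝ≥0∞} (hw : IsWeight Γ w c) (hw' : IsWeight Γ w' c') (hc : c ≠ 0) (hct : c ≠ ∞)
    (hc' : c' ≠ 0) (hct' : c' ≠ ∞) {F : ℍ → ℂ}
    (hF : Measurable F) (hinv : ∀ γ ∈ Γ, ∀ x, F (γ • x) = F x) :
    (∫ x, F x ∂((volume : Measure ℍ).withDensity w)) / ((∫⁻ x, w x).toReal : ℂ) =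
    (∫ x, F x ∂((volume : Measure ℍ).withDensity w')) / ((∫⁻ x, w' x).toReal : ℂ) := by
  have := countable_of_isArithmetic Γ
  have h1 := hw.integral_eq (μ := (volume : Measure ℍ)) hw' hF hinv
  have h2 := hw.lintegral_eq (μ := (volume : Measure ℍ)) hw' (F := fun _ => 1) measurable_const
    (fun _ _ _ => rfl)
  simp only [one_mul] at h2
  have h3 := congrArg ENNReal.toReal h2
  rw [ENNReal.toReal_mul, ENNReal.toReal_mul] at h3
  have hcr : c.toReal ≠ 0 := by rw [ENNReal.toReal_ne_zero]; exact ⟨hc, hct⟩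
  have hcr' : c'.toReal ≠ 0 := by rw [ENNReal.toReal_ne_zero]; exact ⟨hc', hct'⟩
  have hcc : (c.toReal : ℂ) ≠ 0 := by exact_mod_cast hcr
  have hcc' : (c'.toReal : ℂ) ≠ 0 := by exact_mod_cast hcr'
  set A := ∫ x, F x ∂((volume : Measure ℍ).withDensity w)
  set B := ∫ x, F x ∂((volume : Measure ℍ).withDensity w')
  set a := (∫⁻ x, w x).toReal
  set b := (∫⁻ x, w' x).toReal
  have h1' : (c'.toReal : ℂ) * A = c.toReal * B := by simpa using h1
  have h3' : (c'.toReal : ℂ) * a = c.toReal * b := by exact_mod_cast h3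
  calc A / (a : ℂ) = ((c'.toReal : ℂ) * A) / ((c'.toReal : ℂ) * a) := by
        rw [mul_div_mul_left _ _ hcc']
    _ = (c.toReal * B) / (c.toReal * b) := by rw [h1', h3']
    _ = B / b := by rw [mul_div_mul_left _ _ hcc]

theorem ratio_eq_of_le {Λ Γ : Subgroup (GL (Fin 2) ℝ)} [Λ.IsArithmetic] [Γ.IsArithmetic]
    (hΛ : Λ ≤ Γ) {w w' : ℍ → ℝ≥0∞}
    {c c' : ℝ≥0∞} (hw : IsWeight Λ w c) (hw' : IsWeight Γ w' c') (hc : c ≠ 0) (hct : c ≠ ∞)
    (hc' : c' ≠ 0) (hct' : c' ≠ ∞) {F : ℍ → ℂ}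
    (hF : Measurable F) (hinv : ∀ γ ∈ Γ, ∀ x, F (γ • x) = F x) :
    (∫ x, F x ∂((volume : Measure ℍ).withDensity w)) / ((∫⁻ x, w x).toReal : ℂ) =
    (∫ x, F x ∂((volume : Measure ℍ).withDensity w')) / ((∫⁻ x, w' x).toReal : ℂ) := by
  have hfi : (Λ.subgroupOf Γ).FiniteIndex :=
    ⟨((Subgroup.IsArithmetic.is_commensurable (𝒢 := Λ)).trans
      (Subgroup.IsArithmetic.is_commensurable (𝒢 := Γ)).symm).1⟩
  have hne : (Λ.relIndex Γ : ℝ≥0∞) ≠ 0 := by exact_mod_cast hfi.index_ne_zero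
  exact ratio_eq_of_same (hw.of_le hΛ) hw' (mul_ne_zero hne hc)
    (ENNReal.mul_ne_top (by simp) hct) hc' hct' hF hinv

theorem exists_weight (Γ : Subgroup (GL (Fin 2) ℝ)) [Γ.IsArithmetic] :
    ∃ (w : ℍ → ℝ≥0∞) (c : ℝ≥0∞), IsWeight Γ w c ∧ c ≠ 0 ∧ c ≠ ∞ ∧
      ∫⁻ x, w x ≠ 0 ∧ ∫⁻ x, w x ≠ ∞ := by
  obtain ⟨w, hw, h0, ht⟩ := exists_weight_le (Γ ⊓ 𝒮ℒ) inf_le_right
  have hfi : ((Γ ⊓ 𝒮ℒ).subgroupOf Γ).FiniteIndex :=
    ⟨((Subgroup.IsArithmetic.is_commensurable (𝒢 := Γ ⊓ 𝒮ℒ)).trans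
      (Subgroup.IsArithmetic.is_commensurable (𝒢 := Γ)).symm).1⟩
  have hne : ((Γ ⊓ 𝒮ℒ).relIndex Γ : ℝ≥0∞) ≠ 0 := by exact_mod_cast hfi.index_ne_zero
  exact ⟨w, _, hw.of_le inf_le_left, mul_ne_zero hne one_ne_zero,
    ENNReal.mul_ne_top (by simp) one_ne_top, h0, ht⟩

theorem ratio_eq {Γ Γ' : Subgroup (GL (Fin 2) ℝ)} [Γ.IsArithmetic] [Γ'.IsArithmetic]
    {w w' : ℍ → ℝ≥0∞}
    {c c' : ℝ≥0∞} (hw : IsWeight Γ w c) (hw' : IsWeight Γ' w' c') (hc : c ≠ 0) (hct : c ≠ ∞)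
    (hc' : c' ≠ 0) (hct' : c' ≠ ∞) {F : ℍ → ℂ}
    (hF : Measurable F) (hinv : ∀ γ ∈ Γ, ∀ x, F (γ • x) = F x)
    (hinv' : ∀ γ ∈ Γ', ∀ x, F (γ • x) = F x) :
    (∫ x, F x ∂((volume : Measure ℍ).withDensity w)) / ((∫⁻ x, w x).toReal : ℂ) =
    (∫ x, F x ∂((volume : Measure ℍ).withDensity w')) / ((∫⁻ x, w' x).toReal : ℂ) := by
  obtain ⟨v, d, hv, hd, hdt, -, -⟩ := exists_weight (Γ ⊓ Γ')
  rw [← ratio_eq_of_le inf_le_left hv hw hd hdt hc hct hF hinv,
    ratio_eq_of_le inf_le_right hv hw' hd hdt hc' hct' hF hinv']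

open Classical in
/-- The normalised invariant mean. -/
noncomputable def avg (F : ℍ → ℂ) : ℂ :=
  if h : ∃ Γ : Subgroup (GL (Fin 2) ℝ), Γ.IsArithmetic ∧ ∀ γ ∈ Γ, ∀ τ, F (γ • τ) = F τ then
    haveI := h.choose_spec.1
    (∫ x, F x ∂((volume : Measure ℍ).withDensity (exists_weight h.choose).choose)) /
      ((∫⁻ x, (exists_weight h.choose).choose x).toReal : ℂ)
  else 0

theorem avg_eq {Γ : Subgroup (GL (Fin 2) ℝ)} [hΓ : Γ.IsArithmetic] {w : ℍ → ℝ≥0∞} {c : ℝ≥0∞}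
    (hw : IsWeight Γ w c) (hc : c ≠ 0) (hct : c ≠ ∞) {F : ℍ → ℂ}
    (hF : Measurable F) (hinv : ∀ γ ∈ Γ, ∀ x, F (γ • x) = F x) :
    avg F = (∫ x, F x ∂((volume : Measure ℍ).withDensity w)) / ((∫⁻ x, w x).toReal : ℂ) := by
  have h : ∃ Γ : Subgroup (GL (Fin 2) ℝ), Γ.IsArithmetic ∧ ∀ γ ∈ Γ, ∀ τ, F (γ • τ) = F τ :=
    ⟨Γ, hΓ, hinv⟩
  rw [avg, dif_pos h]
  have := h.choose_spec.1
  obtain ⟨d, h1, h2, h3, h4, h5⟩ := (exists_weight h.choose).choose_spec
  exact ratio_eq h1 hw h2 h3 hc hct hF h.choose_spec.2 hinv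

theorem integrable_of_bounded {w : ℍ → ℝ≥0∞} (hw : ∫⁻ x, w x ≠ ∞) {F : ℍ → ℂ}
    (hF : Measurable F) (hb : ∃ C : ℝ, ∀ τ, ‖F τ‖ ≤ C) :
    Integrable F ((volume : Measure ℍ).withDensity w) := by
  have : IsFiniteMeasure ((volume : Measure ℍ).withDensity w) := isFiniteMeasure_withDensity hw
  obtain ⟨C, hC⟩ := hb
  exact Integrable.of_bound hF.aestronglyMeasurable C (Filter.Eventually.of_forall hC)

theorem ArithInv.add {F F' : ℍ → ℂ} (h : ArithInv F) (h' : ArithInv F') :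
    ArithInv (fun τ => F τ + F' τ) := by
  obtain ⟨C, hC⟩ := h.bounded
  obtain ⟨C', hC'⟩ := h'.bounded
  obtain ⟨Γ, hΓ, hi⟩ := h.invariant
  obtain ⟨Γ', hΓ', hi'⟩ := h'.invariant
  refine ⟨h.measurable.add h'.measurable, ⟨C + C', fun τ => ?_⟩, ⟨Γ ⊓ Γ', inferInstance, ?_⟩⟩
  · exact (norm_add_le _ _).trans (add_le_add (hC τ) (hC' τ))
  · intro γ hγ τ
    rw [hi γ hγ.1, hi' γ hγ.2]

theorem avg_add {F F' : ℍ → ℂ} (h : ArithInv F) (h' : ArithInv F') :
    avg (fun τ => F τ + F' τ) = avg F + avg F' := by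
  obtain ⟨Γ, hΓ, hi⟩ := h.invariant
  obtain ⟨Γ', hΓ', hi'⟩ := h'.invariant
  obtain ⟨v, d, hv, hd, hdt, h0, ht⟩ := exists_weight (Γ ⊓ Γ')
  rw [avg_eq hv hd hdt h.measurable (fun γ hγ => hi γ hγ.1),
    avg_eq hv hd hdt h'.measurable (fun γ hγ => hi' γ hγ.2),
    avg_eq hv hd hdt (F := fun τ => F τ + F' τ) (h.measurable.add h'.measurable)
      (fun γ hγ x => by simp [hi γ hγ.1, hi' γ hγ.2]),
    ← add_div]
  congr 1
  exact integral_add (integrable_of_bounded ht h.measurable h.bounded)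
    (integrable_of_bounded ht h'.measurable h'.bounded)

theorem ArithInv.const_mul {F : ℍ → ℂ} (h : ArithInv F) (a : ℂ) :
    ArithInv (fun τ => a * F τ) := by
  obtain ⟨C, hC⟩ := h.bounded
  obtain ⟨Γ, hΓ, hi⟩ := h.invariant
  refine ⟨h.measurable.const_mul a, ⟨‖a‖ * C, fun τ => ?_⟩, ⟨Γ, hΓ, ?_⟩⟩
  · rw [norm_mul]
    exact mul_le_mul_of_nonneg_left (hC τ) (norm_nonneg _)
  · intro γ hγ τ
    rw [hi γ hγ]

theorem avg_const_mul {F : ℍ → ℂ} (h : ArithInv F) (a : ℂ) :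
    avg (fun τ => a * F τ) = a * avg F := by
  obtain ⟨Γ, hΓ, hi⟩ := h.invariant
  obtain ⟨v, d, hv, hd, hdt, h0, ht⟩ := exists_weight Γ
  rw [avg_eq hv hd hdt h.measurable hi,
    avg_eq hv hd hdt (F := fun τ => a * F τ) (h.measurable.const_mul a) (fun γ hγ x => by simp [hi γ hγ]),
    integral_const_mul, mul_div_assoc]

theorem ArithInv.conj {F : ℍ → ℂ} (h : ArithInv F) :
    ArithInv (fun τ => (starRingEnd ℂ) (F τ)) := by
  obtain ⟨C, hC⟩ := h.bounded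
  obtain ⟨Γ, hΓ, hi⟩ := h.invariant
  refine ⟨Complex.continuous_conj.measurable.comp h.measurable, ⟨C, fun τ => ?_⟩, ⟨Γ, hΓ, ?_⟩⟩
  · simpa using hC τ
  · intro γ hγ τ
    rw [hi γ hγ]

theorem avg_conj {F : ℍ → ℂ} (h : ArithInv F) :
    avg (fun τ => (starRingEnd ℂ) (F τ)) = (starRingEnd ℂ) (avg F) := by
  obtain ⟨Γ, hΓ, hi⟩ := h.invariant
  obtain ⟨v, d, hv, hd, hdt, h0, ht⟩ := exists_weight Γ
  rw [avg_eq hv hd hdt h.measurable hi,
    avg_eq hv hd hdt h.conj.measurable (fun γ hγ x => by simp [hi γ hγ]),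
    integral_conj, map_div₀, Complex.conj_ofReal]

theorem ArithInv.comp_smul {F : ℍ → ℂ} (h : ArithInv F) (g : GL (Fin 2) ℚ) :
    ArithInv (fun τ => F ((g.map (Rat.castHom ℝ)) • τ)) := by
  obtain ⟨C, hC⟩ := h.bounded
  obtain ⟨Γ, hΓ, hi⟩ := h.invariant
  refine ⟨h.measurable.comp (measurable_const_smul _), ⟨C, fun τ => hC _⟩, ?_⟩
  refine ⟨_, Subgroup.IsArithmetic.conj Γ g⁻¹, ?_⟩
  intro γ hγ τ
  rw [Subgroup.mem_pointwise_smul_iff_inv_smul_mem] at hγ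
  have e : (ConjAct.toConjAct ((g⁻¹).map (Rat.castHom ℝ)))⁻¹ • γ =
      (g.map (Rat.castHom ℝ)) * γ * (g.map (Rat.castHom ℝ))⁻¹ := by
    rw [← map_inv, ConjAct.toConjAct_smul]
    simp
  rw [e] at hγ
  have := hi _ hγ ((g.map (Rat.castHom ℝ)) • τ)
  rw [smul_smul, inv_mul_cancel_right] at this
  rw [smul_smul, this]

theorem withDensity_comp_smul_map (g : GL (Fin 2) ℝ) {w : ℍ → ℝ≥0∞} (hw : Measurable w) :
    ((volume : Measure ℍ).withDensity (fun x => w (g • x))).map (fun x => g • x) =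
      (volume : Measure ℍ).withDensity w := by
  ext s hs
  rw [Measure.map_apply (measurable_const_smul g) hs, withDensity_apply _ hs,
    withDensity_apply _ (measurable_const_smul g hs)]
  exact (measurePreserving_smul g (volume : Measure ℍ)).setLIntegral_comp_preimage hs hw

/-- Invariance of the mean under `GL(2, ℚ)`. -/
theorem avg_comp_smul {F : ℍ → ℂ} (h : ArithInv F) (g : GL (Fin 2) ℚ) :
    avg (fun τ => F ((g.map (Rat.castHom ℝ)) • τ)) = avg F := by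
  obtain ⟨Γ, hΓ, hi⟩ := h.invariant
  obtain ⟨v, d, hv, hd, hdt, h0, ht⟩ := exists_weight Γ
  have hconj := Subgroup.IsArithmetic.conj Γ g⁻¹
  have hv' := hv.comp_smul ((g⁻¹).map (Rat.castHom ℝ))
  have hgrp : Γ.map (MulAut.conj ((g⁻¹).map (Rat.castHom ℝ))).toMonoidHom =
      ConjAct.toConjAct ((g⁻¹).map (Rat.castHom ℝ)) • Γ := by
    ext x
    rw [Subgroup.mem_map, Subgroup.mem_pointwise_smul_iff_inv_smul_mem]
    constructor
    · rintro ⟨y, hy, rfl⟩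
      convert hy using 1
      rw [← map_inv, ConjAct.toConjAct_smul]
      simp [mul_assoc]
    · intro hx
      refine ⟨_, hx, ?_⟩
      rw [← map_inv, ConjAct.toConjAct_smul]
      simp [mul_assoc]
  rw [hgrp] at hv'
  have hinv : ∀ γ ∈ ConjAct.toConjAct ((g⁻¹).map (Rat.castHom ℝ)) • Γ, ∀ τ,
      F ((g.map (Rat.castHom ℝ)) • (γ • τ)) = F ((g.map (Rat.castHom ℝ)) • τ) := by
    intro γ hγ τ
    rw [Subgroup.mem_pointwise_smul_iff_inv_smul_mem] at hγ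
    have e : (ConjAct.toConjAct ((g⁻¹).map (Rat.castHom ℝ)))⁻¹ • γ =
        (g.map (Rat.castHom ℝ)) * γ * (g.map (Rat.castHom ℝ))⁻¹ := by
      rw [← map_inv, ConjAct.toConjAct_smul]
      simp
    rw [e] at hγ
    have := hi _ hγ ((g.map (Rat.castHom ℝ)) • τ)
    rw [smul_smul, inv_mul_cancel_right] at this
    rw [smul_smul, this]
  rw [avg_eq hv' hd hdt (F := fun τ => F ((g.map (Rat.castHom ℝ)) • τ))
    (h.measurable.comp (measurable_const_smul _)) hinv, avg_eq hv hd hdt h.measurable hi]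
  have e2 : (fun x : ℍ => v (((g⁻¹).map (Rat.castHom ℝ))⁻¹ • x)) =
      fun x => v ((g.map (Rat.castHom ℝ)) • x) := by
    ext x
    rw [map_inv, inv_inv]
  rw [e2]
  congr 1
  · rw [← withDensity_comp_smul_map (g.map (Rat.castHom ℝ)) hv.measurable]
    rw [integral_map (measurable_const_smul _).aemeasurable
      h.measurable.aestronglyMeasurable]
  · congr 2
    exact (measurePreserving_smul (g.map (Rat.castHom ℝ)) (volume : Measure ℍ)).lintegral_comp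
      hv.measurable

theorem avg_sum {ι : Type*} (s : Finset ι) {F : ι → ℍ → ℂ} (h : ∀ i ∈ s, ArithInv (F i)) :
    ArithInv (fun τ => ∑ i ∈ s, F i τ) ∧ avg (fun τ => ∑ i ∈ s, F i τ) = ∑ i ∈ s, avg (F i) := by
  classical
  induction s using Finset.induction_on with
  | empty =>
    have h0 : ArithInv (fun _ => (0 : ℂ)) :=
      ⟨measurable_const, ⟨0, by simp⟩, ⟨𝒮ℒ, inferInstance, fun _ _ _ => rfl⟩⟩
    refine ⟨by simpa using h0, ?_⟩
    have := avg_const_mul h0 0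
    simpa using this
  | insert a s ha ih =>
    have h1 := ih (fun i hi => h i (Finset.mem_insert_of_mem hi))
    have h2 := h a (Finset.mem_insert_self a s)
    simp_rw [Finset.sum_insert ha]
    refine ⟨h2.add h1.1, ?_⟩
    rw [avg_add h2 h1.1, h1.2]

/-- Positivity. -/
theorem avg_nonneg {F : ℍ → ℂ} (h : ArithInv F) (hF : ∀ τ, ∃ r : ℝ, 0 ≤ r ∧ F τ = r) :
    ∃ r : ℝ, 0 ≤ r ∧ avg F = r := by
  obtain ⟨Γ, hΓ, hi⟩ := h.invariant
  obtain ⟨v, d, hv, hd, hdt, h0, ht⟩ := exists_weight Γ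
  rw [avg_eq hv hd hdt h.measurable hi]
  choose f hf0 hf using hF
  have hF' : ∫ x, F x ∂((volume : Measure ℍ).withDensity v) =
      ((∫ x, f x ∂((volume : Measure ℍ).withDensity v) : ℝ) : ℂ) := by
    rw [← integral_complex_ofReal]
    exact integral_congr_ae (Filter.Eventually.of_forall hf)
  rw [hF']
  refine ⟨(∫ x, f x ∂((volume : Measure ℍ).withDensity v)) / (∫⁻ x, v x).toReal, ?_, by push_cast; rfl⟩
  exact div_nonneg (integral_nonneg hf0) ENNReal.toReal_nonneg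

/-- Definiteness, for continuous functions. -/
theorem eq_zero_of_avg_eq_zero {F : ℍ → ℂ} (h : ArithInv F) (hc : Continuous F)
    (hF : ∀ τ, ∃ r : ℝ, 0 ≤ r ∧ F τ = r) (h0 : avg F = 0) (τ : ℍ) : F τ = 0 := by
  obtain ⟨Γ, hΓ, hi⟩ := h.invariant
  have hcount := countable_of_isArithmetic Γ
  obtain ⟨v, d, hv, hd, hdt, hv0, hvt⟩ := exists_weight Γ
  rw [avg_eq hv hd hdt h.measurable hi] at h0
  choose f hf0 hf using hF
  have hfre : ∀ τ, f τ = (F τ).re := fun τ => by rw [hf]; simp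
  have hF' : ∫ x, F x ∂((volume : Measure ℍ).withDensity v) =
      ((∫ x, f x ∂((volume : Measure ℍ).withDensity v) : ℝ) : ℂ) := by
    rw [← integral_complex_ofReal]
    exact integral_congr_ae (Filter.Eventually.of_forall hf)
  have hfc : Continuous f := by
    have : f = fun τ => (F τ).re := funext hfre
    rw [this]; fun_prop
  have hden : ((∫⁻ x, v x).toReal : ℂ) ≠ 0 := by
    have : (∫⁻ x, v x).toReal ≠ 0 := by rw [ENNReal.toReal_ne_zero]; exact ⟨hv0, hvt⟩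
    exact_mod_cast this
  rw [_root_.div_eq_zero_iff, or_iff_left hden, hF'] at h0
  have h1 : ∫ x, f x ∂((volume : Measure ℍ).withDensity v) = 0 := by exact_mod_cast h0
  have hint : Integrable f ((volume : Measure ℍ).withDensity v) := by
    have := (integrable_of_bounded hvt h.measurable h.bounded).re
    refine this.congr (Filter.Eventually.of_forall fun x => ?_)
    simp [hfre]
  rw [integral_eq_zero_iff_of_nonneg hf0 hint] at h1
  have h2 : ∫⁻ x, ENNReal.ofReal (f x) * v x ∂(volume : Measure ℍ) = 0 := by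
    have h3 : ∫⁻ x, ENNReal.ofReal (f x) ∂((volume : Measure ℍ).withDensity v) = 0 := by
      rw [lintegral_eq_zero_iff (by fun_prop)]
      filter_upwards [h1] with x hx
      simp [hx]
    rw [lintegral_withDensity_eq_lintegral_mul _ hv.measurable (by fun_prop)] at h3
    rw [← h3]
    refine lintegral_congr fun x => ?_
    simp [mul_comm]
  have h4 := hv.ae_eq_zero (μ := (volume : Measure ℍ)) hd (F := fun x => ENNReal.ofReal (f x))
    (by fun_prop) (fun γ hγ x => by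
      have : f (γ • x) = f x := by rw [hfre, hfre, hi γ hγ]
      rw [this]) h2
  have h5 : (fun x => ENNReal.ofReal (f x)) = fun _ => 0 :=
    Continuous.ae_eq_iff_eq (volume : Measure ℍ) (ENNReal.continuous_ofReal.comp hfc)
      continuous_const |>.1 h4
  have h6 := congrFun h5 τ
  simp only [ENNReal.ofReal_eq_zero] at h6
  rw [hf τ, le_antisymm h6 (hf0 τ)]
  simp

end Fermat.Agent.Petersson
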