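import Fermat.Agent.Petersson.Pairing
import Fermat.Prelude.Def_CuspForm_HeckeAlgebra

/-!
Self-adjointness of the Hecke operators `T_p`, `p ∤ N`, for the Petersson pairing on
`S_k(Γ₀(N))`; the Hecke algebra away from the level is reduced.
-/

set_option autoImplicit false

open MeasureTheory ENNReal UpperHalfPlane ModularGroup ModularForm
open scoped MatrixGroups Modular Pointwise Manifold

namespace Fermat.Agent.Petersson

theorem map_mapGL_rat (δ : SL(2, ℤ)) :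
    (Matrix.SpecialLinearGroup.mapGL ℚ δ).map (Rat.castHom ℝ) =
      Matrix.SpecialLinearGroup.mapGL ℝ δ := by
  ext i j
  simp

theorem CuspLike.slash_SL {k : ℤ} {F : ℍ → ℂ} (hF : CuspLike k F) (δ : SL(2, ℤ)) :
    CuspLike k (F ∣[k] (Matrix.SpecialLinearGroup.mapGL ℝ δ)) := by
  rw [← map_mapGL_rat]
  exact hF.slash _

theorem pet_slash_SL {k : ℤ} {F G : ℍ → ℂ} (hF : CuspLike k F) (hG : CuspLike k G)
    (δ : SL(2, ℤ)) :
    pet k (F ∣[k] (Matrix.SpecialLinearGroup.mapGL ℝ δ))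
      (G ∣[k] (Matrix.SpecialLinearGroup.mapGL ℝ δ)) = pet k F G := by
  have h1 : ((Matrix.SpecialLinearGroup.mapGL ℚ δ).map (Rat.castHom ℝ)).det.val = 1 := by
    rw [map_mapGL_rat]; simp
  have := pet_slash hF hG (Matrix.SpecialLinearGroup.mapGL ℚ δ) (by rw [h1]; exact one_pos)
  rw [h1] at this
  simpa [map_mapGL_rat] using this

/-- rational version of `heckeMatrix` -/
noncomputable def ratHecke (p : ℕ) (hp : p ≠ 0) (j : ℕ) : GL (Fin 2) ℚ :=
  Matrix.GeneralLinearGroup.mkOfDetNeZero !![1, (j : ℚ); 0, (p : ℚ)]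
    (by rw [Matrix.det_fin_two_of]; simpa using hp)

noncomputable def ratDiag (p : ℕ) (hp : p ≠ 0) : GL (Fin 2) ℚ :=
  Matrix.GeneralLinearGroup.mkOfDetNeZero !![(p : ℚ), 0; 0, 1]
    (by rw [Matrix.det_fin_two_of]; simpa using hp)

theorem map_ratHecke (p : ℕ) (hp : p ≠ 0) (j : ℕ) :
    (ratHecke p hp j).map (Rat.castHom ℝ) = heckeMatrix p j := by
  ext i j'
  rw [val_heckeMatrix hp]
  fin_cases i <;> fin_cases j' <;> simp [ratHecke, Matrix.GeneralLinearGroup.mkOfDetNeZero]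

theorem map_ratDiag (p : ℕ) (hp : p ≠ 0) :
    (ratDiag p hp).map (Rat.castHom ℝ) = heckeDiagMatrix p := by
  ext i j'
  rw [val_heckeDiagMatrix hp]
  fin_cases i <;> fin_cases j' <;> simp [ratDiag, Matrix.GeneralLinearGroup.mkOfDetNeZero]

theorem CuspLike.slash_heckeMatrix {k : ℤ} {F : ℍ → ℂ} (hF : CuspLike k F) {p : ℕ} (hp : p ≠ 0)
    (j : ℕ) : CuspLike k (F ∣[k] heckeMatrix p j) := by
  rw [← map_ratHecke p hp]
  exact hF.slash _

theorem CuspLike.slash_heckeDiagMatrix {k : ℤ} {F : ℍ → ℂ} (hF : CuspLike k F) {p : ℕ}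
    (hp : p ≠ 0) : CuspLike k (F ∣[k] heckeDiagMatrix p) := by
  rw [← map_ratDiag p hp]
  exact hF.slash _

theorem mapGL_apply' (g : SL(2, ℤ)) (i j : Fin 2) :
    ((Matrix.SpecialLinearGroup.mapGL ℝ g : GL (Fin 2) ℝ) : Matrix (Fin 2) (Fin 2) ℝ) i j =
      ((g : Matrix (Fin 2) (Fin 2) ℤ) i j : ℝ) := rfl

/-- upper triangular unipotent element -/
def uni (j : ℤ) : SL(2, ℤ) := ⟨!![1, j; 0, 1], by simp⟩

theorem uni_mem (N : ℕ) (j : ℤ) : uni j ∈ CongruenceSubgroup.Gamma0 N := by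
  rw [CongruenceSubgroup.Gamma0_mem]
  simp [uni]

theorem heckeMatrix_eq (p : ℕ) (hp : p ≠ 0) (j : ℕ) :
    heckeMatrix p j = heckeMatrix p 0 * Matrix.SpecialLinearGroup.mapGL ℝ (uni j) := by
  ext i j'
  rw [Matrix.GeneralLinearGroup.coe_mul, val_heckeMatrix hp, val_heckeMatrix hp,
    Matrix.SpecialLinearGroup.mapGL_coe_matrix, Matrix.SpecialLinearGroup.map_apply_coe,
    RingHom.mapMatrix_apply, uni]
  fin_cases i <;> fin_cases j' <;>
    simp [Matrix.mul_apply, Fin.sum_univ_two]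

theorem slash_diag_hecke {k : ℤ} {p : ℕ} (hp : p ≠ 0) (F : ℍ → ℂ) :
    (F ∣[k] heckeDiagMatrix p) ∣[k] heckeMatrix p 0 = ((p : ℂ) ^ (k - 2)) • F := by
  ext τ
  rw [slash_heckeMatrix_apply k hp, slash_heckeDiagMatrix_apply k hp]
  have h1 : heckeDiagMatrix p • (heckeMatrix p 0 • τ) = τ := by
    apply UpperHalfPlane.ext
    rw [coe_heckeDiagMatrix_smul hp, coe_heckeMatrix_smul hp]
    have : (p : ℂ) ≠ 0 := by exact_mod_cast hp
    field_simp
    simp
  rw [h1, Pi.smul_apply, smul_eq_mul, ← mul_assoc]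
  congr 1
  have hp' : (p : ℂ) ≠ 0 := by exact_mod_cast hp
  rw [← zpow_neg_one, ← zpow_add₀ hp']
  congr 1
  ring

/-- `diag(p,1)` lies in the double coset of `diag(1,p)` when `p ∤ N`. -/
theorem exists_diag_eq {N p : ℕ} (hp : p.Prime) (hpN : ¬ p ∣ N) :
    ∃ γ γ' : SL(2, ℤ), γ ∈ CongruenceSubgroup.Gamma0 N ∧ γ' ∈ CongruenceSubgroup.Gamma0 N ∧
      heckeDiagMatrix p = Matrix.SpecialLinearGroup.mapGL ℝ γ * heckeMatrix p 0 *
        Matrix.SpecialLinearGroup.mapGL ℝ γ' := by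
  have hcop : IsCoprime (p : ℤ) (N : ℤ) := by
    rw [Nat.isCoprime_iff_coprime]
    exact (Nat.Prime.coprime_iff_not_dvd hp).2 hpN
  obtain ⟨a, b, hab⟩ := hcop
  -- a * p + b * N = 1
  let γ : SL(2, ℤ) := ⟨!![p * a, -b; N, 1], by rw [Matrix.det_fin_two_of]; linarith⟩
  let γ'' : SL(2, ℤ) := ⟨!![a, -b; N, p], by rw [Matrix.det_fin_two_of]; linarith⟩
  refine ⟨γ, γ''⁻¹, ?_, ?_, ?_⟩
  · rw [CongruenceSubgroup.Gamma0_mem]; simp [γ]
  · refine inv_mem ?_
    rw [CongruenceSubgroup.Gamma0_mem]; simp [γ'']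
  · rw [map_inv, eq_mul_inv_iff_mul_eq]
    ext i j
    rw [Matrix.GeneralLinearGroup.coe_mul, Matrix.GeneralLinearGroup.coe_mul,
      val_heckeMatrix hp.ne_zero, val_heckeDiagMatrix hp.ne_zero,
      Matrix.SpecialLinearGroup.mapGL_coe_matrix, Matrix.SpecialLinearGroup.mapGL_coe_matrix,
      Matrix.SpecialLinearGroup.map_apply_coe, Matrix.SpecialLinearGroup.map_apply_coe,
      RingHom.mapMatrix_apply, RingHom.mapMatrix_apply]
    fin_cases i <;> fin_cases j <;>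
      simp [γ, γ'', Matrix.mul_apply, Fin.sum_univ_two, mul_comm]

section

variable {N : ℕ} {k : ℤ} {p : ℕ}

theorem slash_mapGL_eq (f : CuspForm (CongruenceSubgroup.Gamma0 N) k) {γ : SL(2, ℤ)}
    (hγ : γ ∈ CongruenceSubgroup.Gamma0 N) :
    (⇑f) ∣[k] (Matrix.SpecialLinearGroup.mapGL ℝ γ) = f :=
  SlashInvariantFormClass.slash_action_eq f _ ⟨γ, hγ, rfl⟩

variable [NeZero N]

theorem pet_slash_heckeMatrix (hp : p ≠ 0) (f g : CuspForm (CongruenceSubgroup.Gamma0 N) k)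
    (j : ℕ) : pet k (⇑f ∣[k] heckeMatrix p j) g = pet k (⇑f ∣[k] heckeMatrix p 0) g := by
  have hf := CuspLike.of_cuspForm f
  have hg := CuspLike.of_cuspForm g
  rw [heckeMatrix_eq p hp j, SlashAction.slash_mul]
  conv_lhs => rw [← slash_mapGL_eq g (uni_mem N j)]
  rw [pet_slash_SL (hf.slash_heckeMatrix hp 0) hg]

theorem pet_slash_heckeDiagMatrix (hp : p.Prime) (hpN : ¬ p ∣ N)
    (f g : CuspForm (CongruenceSubgroup.Gamma0 N) k) :
    pet k (⇑f ∣[k] heckeDiagMatrix p) g = pet k (⇑f ∣[k] heckeMatrix p 0) g := by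
  have hf := CuspLike.of_cuspForm f
  have hg := CuspLike.of_cuspForm g
  obtain ⟨γ, γ', hγ, hγ', h⟩ := exists_diag_eq hp hpN
  rw [h, SlashAction.slash_mul, SlashAction.slash_mul, slash_mapGL_eq f hγ]
  conv_lhs => rw [← slash_mapGL_eq g hγ']
  rw [pet_slash_SL (hf.slash_heckeMatrix hp.ne_zero 0) hg]

theorem pet_heckeT_left (hp : p.Prime) (hpN : ¬ p ∣ N)
    (f g : CuspForm (CongruenceSubgroup.Gamma0 N) k) :
    pet k (heckeT k p f) g = (p + 1) * pet k (⇑f ∣[k] heckeMatrix p 0) g := by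
  have hf := CuspLike.of_cuspForm f
  have hg := CuspLike.of_cuspForm g
  rw [heckeT_def, pet_add_left (CuspLike.sum _ fun j _ => hf.slash_heckeMatrix hp.ne_zero j)
    (hf.slash_heckeDiagMatrix hp.ne_zero) hg,
    pet_sum_left _ (fun j _ => hf.slash_heckeMatrix hp.ne_zero j) hg,
    pet_slash_heckeDiagMatrix hp hpN, Finset.sum_congr rfl
      (fun j _ => pet_slash_heckeMatrix hp.ne_zero f g j)]
  simp
  ring

theorem pet_slash_alpha (hp : p.Prime) 
    (f g : CuspForm (CongruenceSubgroup.Gamma0 N) k) :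
    pet k (⇑f ∣[k] heckeMatrix p 0) g = pet k f (⇑g ∣[k] heckeDiagMatrix p) := by
  have hf := CuspLike.of_cuspForm f
  have hg := CuspLike.of_cuspForm g
  have hp0 := hp.ne_zero
  have hdet : ((ratHecke p hp0 0).map (Rat.castHom ℝ)).det.val = p := by
    rw [map_ratHecke, det_heckeMatrix hp0]
  have h1 := pet_slash hf (hg.slash_heckeDiagMatrix hp0) (ratHecke p hp0 0)
    (by rw [hdet]; exact_mod_cast hp.pos)
  rw [hdet, map_ratHecke, slash_diag_hecke hp0, pet_smul_right (hf.slash_heckeMatrix hp0 0) hg]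
    at h1
  have h2 : (((p : ℝ) : ℂ)) ^ (k - 2) ≠ 0 := by
    apply zpow_ne_zero
    exact_mod_cast hp0
  have h3 : (p : ℂ) ^ (k - 2) = (((p : ℝ) : ℂ)) ^ (k - 2) := by push_cast; rfl
  rw [h3] at h1
  exact mul_left_cancel₀ h2 h1

/-- `T_p` is self-adjoint. -/
theorem pet_heckeT (hp : p.Prime) (hpN : ¬ p ∣ N)
    (f g : CuspForm (CongruenceSubgroup.Gamma0 N) k) :
    pet k (CuspForm.heckeTLin k hp hpN f) g = pet k f (CuspForm.heckeTLin k hp hpN g) := by
  have hf := CuspLike.of_cuspForm f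
  have hg := CuspLike.of_cuspForm g
  have hTg := CuspLike.of_cuspForm (CuspForm.heckeTLin k hp hpN g)
  rw [pet_symm hTg hf, CuspForm.coe_heckeTLin_apply, CuspForm.coe_heckeTLin_apply,
    pet_heckeT_left hp hpN, pet_heckeT_left hp hpN, map_mul,
    ← pet_symm (hg.slash_heckeMatrix hp.ne_zero 0) hf, pet_slash_alpha hp f g,
    pet_symm (hg.slash_heckeDiagMatrix hp.ne_zero) hf,
    pet_slash_heckeDiagMatrix hp hpN, ← pet_symm (hg.slash_heckeMatrix hp.ne_zero 0) hf]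
  simp

end

end Fermat.Agent.Petersson
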