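import Fermat.Agent.Petersson.Avg

/-!
The Petersson pairing on functions behaving like cusp forms, and its behaviour under the slash
action of `GL(2, ℚ)⁺`.
-/

set_option autoImplicit false

open MeasureTheory ENNReal UpperHalfPlane ModularGroup
open scoped MatrixGroups Modular Pointwise ModularForm Manifold

namespace Fermat.Agent.Petersson

/-- Holomorphic functions which are modular of weight `k` for an arithmetic group and have bounded
Petersson norm. -/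
structure CuspLike (k : ℤ) (F : ℍ → ℂ) : Prop where
  holo : MDiff F
  bdd : ∃ C : ℝ, ∀ τ, ‖petersson k F F τ‖ ≤ C
  inv : ∃ Γ : Subgroup (GL (Fin 2) ℝ), Γ.IsArithmetic ∧ Γ ≤ 𝒮ℒ ∧ ∀ γ ∈ Γ, F ∣[k] γ = F

theorem CuspLike.of_cuspForm {k : ℤ} {Γ : Subgroup (GL (Fin 2) ℝ)} [Γ.IsArithmetic]
    (f : CuspForm Γ k) : CuspLike k f := by
  refine ⟨f.holo', ?_, ⟨Γ ⊓ 𝒮ℒ, inferInstance, inf_le_right, fun γ hγ => ?_⟩⟩
  · exact CuspFormClass.petersson_bounded_left k Γ f f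
  · exact SlashInvariantFormClass.slash_action_eq f γ hγ.1

theorem norm_petersson_self (k : ℤ) (F : ℍ → ℂ) (τ : ℍ) :
    ‖petersson k F F τ‖ = ‖F τ‖ ^ 2 * τ.im ^ k := by
  rw [petersson, norm_mul, norm_mul, RCLike.norm_conj, norm_zpow, Complex.norm_real,
    Real.norm_of_nonneg τ.im_pos.le]
  ring

theorem norm_petersson_le (k : ℤ) (F G : ℍ → ℂ) (τ : ℍ) :
    ‖petersson k F G τ‖ ≤ ‖petersson k F F τ‖ + ‖petersson k G G τ‖ := by
  rw [norm_petersson_self, norm_petersson_self, petersson, norm_mul, norm_mul, RCLike.norm_conj,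
    norm_zpow, Complex.norm_real, Real.norm_of_nonneg τ.im_pos.le, ← add_mul]
  refine mul_le_mul_of_nonneg_right ?_ (zpow_nonneg τ.im_pos.le k)
  nlinarith [sq_nonneg (‖F τ‖ - ‖G τ‖), sq_nonneg (‖F τ‖ + ‖G τ‖)]

theorem det_eq_one_of_mem_SL {γ : GL (Fin 2) ℝ} (hγ : γ ∈ (𝒮ℒ : Subgroup (GL (Fin 2) ℝ))) :
    γ.det = 1 := by
  obtain ⟨g, rfl⟩ := hγ
  simp

theorem petersson_smul_of_slash_eq {k : ℤ} {F G : ℍ → ℂ} {γ : GL (Fin 2) ℝ} (hγ : γ.det = 1)
    (hF : F ∣[k] γ = F) (hG : G ∣[k] γ = G) (τ : ℍ) :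
    petersson k F G (γ • τ) = petersson k F G τ := by
  have := petersson_slash k F G γ τ
  rw [hF, hG] at this
  rw [this]
  simp [hγ, σ]

theorem CuspLike.arithInv {k : ℤ} {F G : ℍ → ℂ} (hF : CuspLike k F) (hG : CuspLike k G) :
    ArithInv (petersson k F G) := by
  obtain ⟨C, hC⟩ := hF.bdd
  obtain ⟨C', hC'⟩ := hG.bdd
  obtain ⟨Γ, hΓ, hSL, hi⟩ := hF.inv
  obtain ⟨Γ', hΓ', hSL', hi'⟩ := hG.inv
  refine ⟨?_, ⟨C + C', fun τ => ?_⟩, ⟨Γ ⊓ Γ', inferInstance, fun γ hγ τ => ?_⟩⟩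
  · exact (petersson_continuous k hF.holo.continuous hG.holo.continuous).measurable
  · exact (norm_petersson_le k F G τ).trans (add_le_add (hC τ) (hC' τ))
  · exact petersson_smul_of_slash_eq (det_eq_one_of_mem_SL (hSL hγ.1)) (hi γ hγ.1) (hi' γ hγ.2) τ

/-- The Petersson pairing. -/
noncomputable def pet (k : ℤ) (F G : ℍ → ℂ) : ℂ := avg (petersson k F G)

theorem CuspLike.slash {k : ℤ} {F : ℍ → ℂ} (hF : CuspLike k F) (A : GL (Fin 2) ℚ) :
    CuspLike k (F ∣[k] (A.map (Rat.castHom ℝ))) := by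
  obtain ⟨C, hC⟩ := hF.bdd
  obtain ⟨Γ, hΓ, hSL, hi⟩ := hF.inv
  refine ⟨hF.holo.slash k _, ⟨|(A.map (Rat.castHom ℝ)).det.val| ^ (k - 2) * C, fun τ => ?_⟩, ?_⟩
  · rw [petersson_slash, norm_mul]
    have : ‖((|(A.map (Rat.castHom ℝ)).det.val| : ℝ) : ℂ) ^ (k - 2)‖ =
        |(A.map (Rat.castHom ℝ)).det.val| ^ (k - 2) := by
      rw [norm_zpow, Complex.norm_real, Real.norm_of_nonneg (abs_nonneg _)]
    rw [this, norm_σ]
    exact mul_le_mul_of_nonneg_left (hC _) (zpow_nonneg (abs_nonneg _) _)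
  · have hconj := Subgroup.IsArithmetic.conj Γ A⁻¹
    refine ⟨(ConjAct.toConjAct ((A⁻¹).map (Rat.castHom ℝ)) • Γ) ⊓ 𝒮ℒ, inferInstance,
      inf_le_right, fun γ hγ => ?_⟩
    have h1 : γ ∈ ConjAct.toConjAct ((A⁻¹).map (Rat.castHom ℝ)) • Γ := hγ.1
    rw [Subgroup.mem_pointwise_smul_iff_inv_smul_mem] at h1
    have e : (ConjAct.toConjAct ((A⁻¹).map (Rat.castHom ℝ)))⁻¹ • γ =
        (A.map (Rat.castHom ℝ)) * γ * (A.map (Rat.castHom ℝ))⁻¹ := by
      rw [← map_inv, ConjAct.toConjAct_smul]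
      simp
    rw [e] at h1
    have h2 := hi _ h1
    calc (F ∣[k] (A.map (Rat.castHom ℝ))) ∣[k] γ
        = (F ∣[k] ((A.map (Rat.castHom ℝ)) * γ * (A.map (Rat.castHom ℝ))⁻¹)) ∣[k]
            (A.map (Rat.castHom ℝ)) := by
          rw [← SlashAction.slash_mul, ← SlashAction.slash_mul, inv_mul_cancel_right]
      _ = F ∣[k] (A.map (Rat.castHom ℝ)) := by rw [h2]

theorem pet_slash {k : ℤ} {F G : ℍ → ℂ} (hF : CuspLike k F) (hG : CuspLike k G)
    (A : GL (Fin 2) ℚ) (hA : 0 < (A.map (Rat.castHom ℝ)).det.val) :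
    pet k (F ∣[k] (A.map (Rat.castHom ℝ))) (G ∣[k] (A.map (Rat.castHom ℝ))) =
      ((A.map (Rat.castHom ℝ)).det.val : ℂ) ^ (k - 2) * pet k F G := by
  unfold pet
  have e : petersson k (F ∣[k] (A.map (Rat.castHom ℝ))) (G ∣[k] (A.map (Rat.castHom ℝ))) =
      fun τ => ((A.map (Rat.castHom ℝ)).det.val : ℂ) ^ (k - 2) *
        petersson k F G ((A.map (Rat.castHom ℝ)) • τ) := by
    ext τ
    rw [petersson_slash, abs_of_pos hA, σ, if_pos hA]
    rfl
  rw [e, avg_const_mul ((hF.arithInv hG).comp_smul A), avg_comp_smul (hF.arithInv hG) A]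

theorem pet_symm {k : ℤ} {F G : ℍ → ℂ} (hF : CuspLike k F) (hG : CuspLike k G) :
    pet k G F = (starRingEnd ℂ) (pet k F G) := by
  unfold pet
  rw [← avg_conj (hF.arithInv hG)]
  congr 1
  ext τ
  exact petersson_symm k F G τ

theorem CuspLike.add {k : ℤ} {F G : ℍ → ℂ} (hF : CuspLike k F) (hG : CuspLike k G) :
    CuspLike k (F + G) := by
  obtain ⟨C, hC⟩ := hF.bdd
  obtain ⟨C', hC'⟩ := hG.bdd
  obtain ⟨Γ, hΓ, hSL, hi⟩ := hF.inv
  obtain ⟨Γ', hΓ', hSL', hi'⟩ := hG.inv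
  refine ⟨hF.holo.add hG.holo, ⟨2 * C + 2 * C', fun τ => ?_⟩, ⟨Γ ⊓ Γ', inferInstance,
    inf_le_left.trans hSL, fun γ hγ => ?_⟩⟩
  · refine le_trans ?_ (add_le_add (mul_le_mul_of_nonneg_left (hC τ) zero_le_two)
      (mul_le_mul_of_nonneg_left (hC' τ) zero_le_two))
    rw [norm_petersson_self, norm_petersson_self, norm_petersson_self]
    have h1 : ‖(F + G) τ‖ ^ 2 ≤ 2 * ‖F τ‖ ^ 2 + 2 * ‖G τ‖ ^ 2 := by
      have := norm_add_le (F τ) (G τ)
      have h2 : ‖(F + G) τ‖ ^ 2 ≤ (‖F τ‖ + ‖G τ‖) ^ 2 :=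
        pow_le_pow_left₀ (norm_nonneg _) this 2
      nlinarith [sq_nonneg (‖F τ‖ - ‖G τ‖)]
    have h3 := zpow_nonneg τ.im_pos.le k
    nlinarith
  · rw [SlashAction.add_slash, hi γ hγ.1, hi' γ hγ.2]

theorem CuspLike.zero (k : ℤ) : CuspLike k 0 := by
  refine ⟨mdifferentiable_const, ⟨0, fun τ => ?_⟩, ⟨𝒮ℒ, inferInstance, le_rfl, fun γ hγ => ?_⟩⟩
  · simp [petersson]
  · simp

theorem CuspLike.smul {k : ℤ} {F : ℍ → ℂ} (hF : CuspLike k F) (a : ℂ) :
    CuspLike k (a • F) := by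
  obtain ⟨C, hC⟩ := hF.bdd
  obtain ⟨Γ, hΓ, hSL, hi⟩ := hF.inv
  refine ⟨hF.holo.const_smul a, ⟨‖a‖ ^ 2 * C, fun τ => ?_⟩, ⟨Γ, hΓ, hSL, fun γ hγ => ?_⟩⟩
  · refine le_trans (le_of_eq ?_) (mul_le_mul_of_nonneg_left (hC τ) (sq_nonneg _))
    rw [norm_petersson_self, norm_petersson_self, Pi.smul_apply, norm_smul]
    ring
  · rw [ModularForm.smul_slash, hi γ hγ]
    have : σ γ a = a := by simp [σ, det_eq_one_of_mem_SL (hSL hγ)]
    rw [this]

theorem pet_add_left {k : ℤ} {F F' G : ℍ → ℂ} (hF : CuspLike k F) (hF' : CuspLike k F')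
    (hG : CuspLike k G) : pet k (F + F') G = pet k F G + pet k F' G := by
  unfold pet
  rw [← avg_add (hF.arithInv hG) (hF'.arithInv hG)]
  congr 1
  ext τ
  simp only [petersson, Pi.add_apply, map_add]
  ring

theorem pet_add_right {k : ℤ} {F G G' : ℍ → ℂ} (hF : CuspLike k F) (hG : CuspLike k G)
    (hG' : CuspLike k G') : pet k F (G + G') = pet k F G + pet k F G' := by
  unfold pet
  rw [← avg_add (hF.arithInv hG) (hF.arithInv hG')]
  congr 1
  ext τ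
  simp only [petersson, Pi.add_apply]
  ring

theorem pet_smul_right {k : ℤ} {F G : ℍ → ℂ} (hF : CuspLike k F) (hG : CuspLike k G) (a : ℂ) :
    pet k F (a • G) = a * pet k F G := by
  unfold pet
  rw [← avg_const_mul (hF.arithInv hG)]
  congr 1
  ext τ
  simp only [petersson, Pi.smul_apply, smul_eq_mul]
  ring

theorem pet_smul_left {k : ℤ} {F G : ℍ → ℂ} (hF : CuspLike k F) (hG : CuspLike k G) (a : ℂ) :
    pet k (a • F) G = (starRingEnd ℂ) a * pet k F G := by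
  unfold pet
  rw [← avg_const_mul (hF.arithInv hG)]
  congr 1
  ext τ
  simp only [petersson, Pi.smul_apply, smul_eq_mul, map_mul]
  ring

theorem CuspLike.sum {k : ℤ} {ι : Type*} (s : Finset ι) {F : ι → ℍ → ℂ}
    (h : ∀ i ∈ s, CuspLike k (F i)) : CuspLike k (∑ i ∈ s, F i) := by
  classical
  induction s using Finset.induction_on with
  | empty => simpa using CuspLike.zero k
  | insert a s ha ih =>
    rw [Finset.sum_insert ha]
    exact (h a (Finset.mem_insert_self a s)).add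
      (ih fun i hi => h i (Finset.mem_insert_of_mem hi))

theorem pet_zero_left {k : ℤ} {G : ℍ → ℂ} (hG : CuspLike k G) : pet k 0 G = 0 := by
  have := pet_smul_left (CuspLike.zero k) hG 0
  simpa using this

theorem pet_sum_left {k : ℤ} {ι : Type*} (s : Finset ι) {F : ι → ℍ → ℂ} {G : ℍ → ℂ}
    (h : ∀ i ∈ s, CuspLike k (F i)) (hG : CuspLike k G) :
    pet k (∑ i ∈ s, F i) G = ∑ i ∈ s, pet k (F i) G := by
  classical
  induction s using Finset.induction_on with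
  | empty => simpa using pet_zero_left hG
  | insert a s ha ih =>
    rw [Finset.sum_insert ha, Finset.sum_insert ha, pet_add_left
      (h a (Finset.mem_insert_self a s))
      (CuspLike.sum s fun i hi => h i (Finset.mem_insert_of_mem hi)) hG,
      ih fun i hi => h i (Finset.mem_insert_of_mem hi)]

theorem petersson_self (k : ℤ) (F : ℍ → ℂ) (τ : ℍ) :
    petersson k F F τ = ((‖F τ‖ ^ 2 * τ.im ^ k : ℝ) : ℂ) := by
  rw [petersson, ← Complex.normSq_eq_conj_mul_self, Complex.normSq_eq_norm_sq]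
  push_cast
  rfl

theorem pet_self_nonneg {k : ℤ} {F : ℍ → ℂ} (hF : CuspLike k F) :
    ∃ r : ℝ, 0 ≤ r ∧ pet k F F = r := by
  refine avg_nonneg (hF.arithInv hF) fun τ => ⟨‖F τ‖ ^ 2 * τ.im ^ k, ?_, petersson_self k F τ⟩
  exact mul_nonneg (sq_nonneg _) (zpow_nonneg τ.im_pos.le k)

theorem eq_zero_of_pet_self {k : ℤ} {F : ℍ → ℂ} (hF : CuspLike k F) (h0 : pet k F F = 0) :
    F = 0 := by
  ext τ
  have h1 := eq_zero_of_avg_eq_zero (hF.arithInv hF)
    (petersson_continuous k hF.holo.continuous hF.holo.continuous)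
    (fun τ => ⟨‖F τ‖ ^ 2 * τ.im ^ k, mul_nonneg (sq_nonneg _) (zpow_nonneg τ.im_pos.le k),
      petersson_self k F τ⟩) h0 τ
  rw [petersson_self] at h1
  have h2 : ‖F τ‖ ^ 2 * τ.im ^ k = 0 := by exact_mod_cast h1
  have h3 : (τ.im : ℝ) ^ k ≠ 0 := (zpow_pos τ.im_pos k).ne'
  simpa [h3] using h2

end Fermat.Agent.Petersson
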