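import Fermat.Agent.Petersson.Weight

/-!
Existence of weights (of finite non-zero mass) for arithmetic subgroups acting on the upper half
plane.
-/

set_option autoImplicit false

open MeasureTheory ENNReal UpperHalfPlane ModularGroup
open scoped MatrixGroups Modular

namespace Fermat.Agent.Petersson

theorem volume_ne_zero_of_isOpen {U : Set ℍ} (hU : IsOpen U) (hne : U.Nonempty) :
    (volume : Measure ℍ) U ≠ 0 := by
  rw [volume_eq_lintegral]
  have hUo : IsOpen ((↑) '' U : Set ℂ) := isOpenEmbedding_coe.isOpenMap U hU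
  have h2 : (0 : ℝ≥0∞) < ∫⁻ z : ℂ in (↑) '' U, ↑((1 / ‖z.im‖₊) ^ 2 : NNReal) := by
    rw [setLIntegral_pos_iff]
    · have : Function.support (fun z : ℂ => (((1 / ‖z.im‖₊) ^ 2 : NNReal) : ℝ≥0∞)) ∩ ((↑) '' U)
          = ((↑) '' U : Set ℂ) := by
        apply Set.inter_eq_right.2
        rintro _ ⟨τ, -, rfl⟩
        simp only [Function.mem_support, ne_eq, ENNReal.coe_eq_zero]
        have := τ.im_pos
        simp [this.ne']
      rw [this]
      exact hUo.measure_pos volume (hne.image _)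
    · fun_prop
  exact h2.ne'

instance : (volume : Measure ℍ).IsOpenPosMeasure :=
  ⟨fun _ hU hne => volume_ne_zero_of_isOpen hU hne⟩

theorem finite_setOf_smul_mem_fd (x : ℍ) : {γ : 𝒮ℒ | (γ : GL (Fin 2) ℝ) • x ∈ 𝒟}.Finite := by
  obtain ⟨g, hg⟩ := exists_max_im x
  have hK : IsCompact ({x} : Set ℍ) := isCompact_singleton
  have hL := isCompact_truncatedFundamentalDomain (g • x).im
  have h := ProperlyDiscontinuousSMul.finite_disjoint_inter_image (Γ := 𝒮ℒ) hK hL
  refine h.subset ?_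
  rintro γ hγ
  simp only [Set.mem_ofPred_eq, Set.image_singleton, Set.singleton_inter_nonempty] at hγ ⊢
  refine ⟨hγ, ?_⟩
  obtain ⟨γ', hγ'⟩ := γ.2
  have := hg γ'
  have e : (γ : GL (Fin 2) ℝ) • x = γ' • x := by
    rw [← hγ']; rfl
  change ((γ : GL (Fin 2) ℝ) • x).im ≤ _
  rw [e]
  exact this

/-- multiplicity function -/
noncomputable def mult (x : ℍ) : ℝ≥0∞ := ∑' γ : 𝒮ℒ, Set.indicator 𝒟 (1 : ℍ → ℝ≥0∞) ((γ : GL (Fin 2) ℝ) • x)

theorem mult_smul (γ : 𝒮ℒ) (x : ℍ) : mult ((γ : GL (Fin 2) ℝ) • x) = mult x := by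
  unfold mult
  conv_rhs => rw [← (Equiv.mulRight γ).tsum_eq]
  refine tsum_congr fun δ => ?_
  rw [smul_smul]
  rfl

theorem mult_ne_top (x : ℍ) : mult x ≠ ∞ := by
  unfold mult
  have hf := finite_setOf_smul_mem_fd x
  rw [tsum_eq_sum (s := hf.toFinset)]
  · refine ENNReal.sum_ne_top.2 fun γ _ => ?_
    by_cases h : (γ : GL (Fin 2) ℝ) • x ∈ 𝒟 <;> simp [h]
  · intro γ hγ
    simp only [Set.Finite.mem_toFinset, Set.mem_ofPred_eq] at hγ
    simp [hγ]

theorem one_le_mult (x : ℍ) : 1 ≤ mult x := by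
  obtain ⟨g, hg⟩ := exists_smul_mem_fd x
  unfold mult
  refine le_trans ?_ (ENNReal.le_tsum ⟨Matrix.SpecialLinearGroup.mapGL ℝ g, g, rfl⟩)
  have : (Matrix.SpecialLinearGroup.mapGL ℝ g) • x ∈ 𝒟 := hg
  simp [this]

theorem measurableSet_fd : MeasurableSet (𝒟 : Set ℍ) := isClosed_fd.measurableSet

instance : Countable 𝒮ℒ := by
  have : Countable (Matrix (Fin 2) (Fin 2) ℤ) := inferInstanceAs (Countable (Fin 2 → Fin 2 → ℤ))
  have : Countable SL(2, ℤ) :=
    inferInstanceAs (Countable {A : Matrix (Fin 2) (Fin 2) ℤ // A.det = 1})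
  exact Function.Surjective.countable (MonoidHom.rangeRestrict_surjective
    (Matrix.SpecialLinearGroup.mapGL ℝ : SL(2, ℤ) →* GL (Fin 2) ℝ))

instance : MeasurableConstSMul (GL (Fin 2) ℝ) ℍ := inferInstance

theorem measurable_mult : Measurable mult := by
  unfold mult
  refine Measurable.tsum fun γ => ?_
  exact (measurable_one.indicator measurableSet_fd).comp
    (measurable_const_smul (γ : GL (Fin 2) ℝ))

/-- the standard weight -/
noncomputable def slWeight (x : ℍ) : ℝ≥0∞ := (Set.indicator 𝒟 (1 : ℍ → ℝ≥0∞) x) / mult x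

theorem isWeight_slWeight : IsWeight 𝒮ℒ slWeight 1 := by
  refine ⟨(measurable_one.indicator measurableSet_fd).div measurable_mult, fun x => ?_⟩
  unfold slWeight
  simp_rw [mult_smul, div_eq_mul_inv]
  rw [ENNReal.tsum_mul_right]
  exact ENNReal.mul_inv_cancel (one_pos.trans_le (one_le_mult x)).ne' (mult_ne_top x)

theorem slWeight_le (x : ℍ) : slWeight x ≤ Set.indicator 𝒟 (1 : ℍ → ℝ≥0∞) x := by
  unfold slWeight
  exact ENNReal.div_le_of_le_mul (le_mul_of_one_le_right' (one_le_mult x))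

theorem volume_fd_lt_top : (volume : Measure ℍ) 𝒟 < ∞ := by
  rw [volume_eq_lintegral]
  have hsub : ((↑) '' 𝒟 : Set ℂ) ⊆
      Complex.measurableEquivRealProd ⁻¹' (Set.Icc (-1 / 2 : ℝ) (1 / 2) ×ˢ Set.Ioi (1 / 2 : ℝ)) := by
    rintro _ ⟨τ, hτ, rfl⟩
    have h1 := three_le_four_mul_im_sq_of_mem_fd hτ
    have h2 := hτ.2
    have h3 := τ.im_pos
    simp only [Set.mem_preimage, Set.mem_prod, Complex.measurableEquivRealProd_apply, Set.mem_Icc,
      Set.mem_Ioi]
    rw [abs_le] at h2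
    refine ⟨⟨?_, ?_⟩, ?_⟩
    · have := h2.1
      simpa [neg_div] using this
    · exact h2.2
    · change 1 / 2 < τ.im
      nlinarith
  refine (lintegral_mono_set hsub).trans_lt ?_
  have hmp := Complex.volume_preserving_equiv_real_prod
  have h1 := hmp.setLIntegral_comp_preimage
    (s := Set.Icc (-1 / 2 : ℝ) (1 / 2) ×ˢ Set.Ioi (1 / 2 : ℝ))
    (measurableSet_Icc.prod measurableSet_Ioi)
    (f := fun p : ℝ × ℝ => (((1 / ‖p.2‖₊) ^ 2 : NNReal) : ℝ≥0∞)) (by fun_prop)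
  simp only [Complex.measurableEquivRealProd_apply] at h1
  rw [h1, Measure.volume_eq_prod, ← Measure.prod_restrict]
  rw [lintegral_prod _ (by fun_prop)]
  simp only [lintegral_const]
  refine ENNReal.mul_lt_top ?_ (by simp)
  have h2 : IntegrableOn (fun t : ℝ => t ^ (-2 : ℝ)) (Set.Ioi (1 / 2 : ℝ)) :=
    integrableOn_Ioi_rpow_of_lt (by norm_num) (by norm_num)
  have h3 := h2.2
  rw [hasFiniteIntegral_iff_enorm] at h3
  refine lt_of_le_of_lt (le_of_eq ?_) h3
  refine setLIntegral_congr_fun measurableSet_Ioi fun y hy => ?_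
  have hy' : (0 : ℝ) < y := lt_trans (by norm_num) hy
  rw [Real.rpow_neg hy'.le, enorm_eq_nnnorm]
  congr 1
  ext
  simp

theorem lintegral_slWeight_ne_top : ∫⁻ x, slWeight x ≠ ∞ := by
  refine (lt_of_le_of_lt (lintegral_mono slWeight_le) ?_).ne
  rw [lintegral_indicator_one measurableSet_fd]
  exact volume_fd_lt_top

/-- If the integral of an invariant function against a weight vanishes, so does the function,
almost everywhere. -/
theorem IsWeight.ae_eq_zero {G X : Type*} [Group G] [MeasurableSpace X] [MulAction G X]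
    {μ : Measure X} [MeasurableConstSMul G X] [SMulInvariantMeasure G X μ]
    {Γ : Subgroup G} [Countable Γ] {w : X → ℝ≥0∞} {c : ℝ≥0∞} (hw : IsWeight Γ w c) (hc : c ≠ 0)
    {F : X → ℝ≥0∞} (hF : Measurable F) (hinv : ∀ γ ∈ Γ, ∀ x, F (γ • x) = F x)
    (h0 : ∫⁻ x, F x * w x ∂μ = 0) : F =ᵐ[μ] 0 := by
  have h1 : ∫⁻ x, F x * c ∂μ = 0 := by
    have e : ∀ x, F x * c = ∑' γ : Γ, F ((γ : G) • x) * w ((γ : G) • x) := by
      intro x
      rw [← hw.tsum_eq x, ← ENNReal.tsum_mul_left]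
      exact tsum_congr fun γ => by rw [hinv γ γ.2]
    simp_rw [e]
    rw [lintegral_tsum]
    · rw [ENNReal.tsum_eq_zero]
      intro γ
      rw [(measurePreserving_smul (γ : G) μ).lintegral_comp (f := fun x => F x * w x)
        (hF.mul hw.measurable), h0]
    · intro γ
      exact ((hF.mul hw.measurable).comp (measurable_const_smul (γ : G))).aemeasurable
  rw [lintegral_eq_zero_iff (hF.mul_const c)] at h1
  filter_upwards [h1] with x hx
  simpa [hc] using hx

theorem lintegral_slWeight_ne_zero : ∫⁻ x, slWeight x ≠ 0 := by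
  intro h
  have h1 := isWeight_slWeight.ae_eq_zero (μ := (volume : Measure ℍ)) one_ne_zero
    (F := fun _ => 1) measurable_const (fun _ _ _ => rfl) (by simpa using h)
  have h2 : (volume : Measure ℍ) Set.univ = 0 := by
    rw [Filter.EventuallyEq, ae_iff] at h1
    simpa using h1
  exact volume_ne_zero_of_isOpen isOpen_univ ⟨UpperHalfPlane.I, trivial⟩ h2

theorem exists_weight_le (Λ : Subgroup (GL (Fin 2) ℝ)) [Λ.IsArithmetic] (hΛ : Λ ≤ 𝒮ℒ) :
    ∃ w : ℍ → ℝ≥0∞, IsWeight Λ w 1 ∧ ∫⁻ x, w x ≠ 0 ∧ ∫⁻ x, w x ≠ ∞ := by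
  have hfi : (Λ.subgroupOf 𝒮ℒ).FiniteIndex :=
    ⟨(Subgroup.IsArithmetic.is_commensurable (𝒢 := Λ)).1⟩
  obtain ⟨w, hw, hw'⟩ := isWeight_slWeight.exists_of_le (μ := (volume : Measure ℍ)) hΛ
  refine ⟨w, hw, ?_, ?_⟩
  · rw [hw']
    refine mul_ne_zero ?_ lintegral_slWeight_ne_zero
    exact_mod_cast (Subgroup.IsArithmetic.is_commensurable (𝒢 := Λ)).1
  · rw [hw']
    exact ENNReal.mul_ne_top (by simp) lintegral_slWeight_ne_top

theorem countable_of_isArithmetic (Γ : Subgroup (GL (Fin 2) ℝ)) [Γ.IsArithmetic] :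
    Countable Γ := by
  have : Finite (Γ ⧸ (Γ ⊓ 𝒮ℒ).subgroupOf Γ) := by
    have : ((Γ ⊓ 𝒮ℒ).subgroupOf Γ).FiniteIndex := by
      rw [Subgroup.inf_subgroupOf_left]
      exact ⟨(Subgroup.IsArithmetic.is_commensurable (𝒢 := Γ)).2⟩
    exact Subgroup.finite_quotient_of_finiteIndex
  have h2 : Countable ((Γ ⊓ 𝒮ℒ).subgroupOf Γ) := by
    rw [Subgroup.inf_subgroupOf_left]
    have : Function.Injective (fun x : (𝒮ℒ : Subgroup (GL (Fin 2) ℝ)).subgroupOf Γ =>
        (⟨((x : Γ) : GL (Fin 2) ℝ), x.2⟩ : (𝒮ℒ : Subgroup (GL (Fin 2) ℝ)))) := by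
      intro x y h
      have h' := congrArg (fun z : (𝒮ℒ : Subgroup (GL (Fin 2) ℝ)) => (z : GL (Fin 2) ℝ)) h
      exact Subtype.ext (Subtype.ext h')
    exact this.countable
  have := (bijective_out_mul ((Γ ⊓ 𝒮ℒ).subgroupOf Γ)).surjective
  exact this.countable

end Fermat.Agent.Petersson
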