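import Mathlib

/-!
Averaging over the quotient of a space by a discrete group via weight functions.
-/

set_option autoImplicit false

open MeasureTheory ENNReal

namespace Fermat.Agent.Petersson

theorem bijective_out_mul {A : Type*} [Group A] (H : Subgroup A) :
    Function.Bijective (fun p : (A ⧸ H) × H => p.1.out * (p.2 : A)) := by
  constructor
  · rintro ⟨q, h⟩ ⟨q', h'⟩ heq
    simp only at heq
    have h1 : q = q' := by
      have := congrArg (QuotientGroup.mk (s := H)) heq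
      rwa [QuotientGroup.mk_mul_of_mem _ h.2, QuotientGroup.mk_mul_of_mem _ h'.2,
        QuotientGroup.out_eq', QuotientGroup.out_eq'] at this
    subst h1
    simp only [mul_right_inj, SetLike.coe_eq_coe] at heq
    rw [heq]
  · intro a
    refine ⟨⟨QuotientGroup.mk a, ⟨(QuotientGroup.mk a : A ⧸ H).out⁻¹ * a, ?_⟩⟩, ?_⟩
    · rw [← QuotientGroup.eq, QuotientGroup.out_eq']
    · simp

theorem tsum_eq_tsum_out_mul {A : Type*} [Group A] (H : Subgroup A) (φ : A → ℝ≥0∞) :
    ∑' a, φ a = ∑' q : A ⧸ H, ∑' h : H, φ (q.out * (h : A)) := by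
  rw [← (Equiv.ofBijective _ (bijective_out_mul H)).tsum_eq, ENNReal.tsum_prod']
  rfl

section General

variable {G X : Type*} [Group G] [MeasurableSpace X] [MulAction G X]

/-- A weight function for a subgroup `Γ`: the sum over each `Γ`-orbit (indexed by the group) is
the constant `c`. -/
structure IsWeight (Γ : Subgroup G) (w : X → ℝ≥0∞) (c : ℝ≥0∞) : Prop where
  measurable : Measurable w
  tsum_eq : ∀ x, ∑' γ : Γ, w ((γ : G) • x) = c

theorem IsWeight.tsum_inv {Γ : Subgroup G} {w : X → ℝ≥0∞} {c : ℝ≥0∞} (h : IsWeight Γ w c) (x : X) :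
    ∑' γ : Γ, w ((γ : G)⁻¹ • x) = c := by
  rw [← h.tsum_eq x, ← (Equiv.inv Γ).tsum_eq]
  simp

theorem IsWeight.comp_smul {Γ : Subgroup G} {w : X → ℝ≥0∞} {c : ℝ≥0∞} [MeasurableConstSMul G X]
    (h : IsWeight Γ w c) (g : G) :
    IsWeight (Γ.map (MulAut.conj g).toMonoidHom) (fun x => w (g⁻¹ • x)) c := by
  refine ⟨h.measurable.comp (measurable_const_smul _), fun x => ?_⟩
  rw [← h.tsum_eq (g⁻¹ • x)]
  let e : Γ ≃ Γ.map (MulAut.conj g).toMonoidHom :=
    (Γ.equivMapOfInjective (MulAut.conj g).toMonoidHom (MulAut.conj g).injective).toEquiv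
  rw [← e.tsum_eq]
  congr 1
  ext γ
  have : ((e γ : Γ.map (MulAut.conj g).toMonoidHom) : G) = g * γ * g⁻¹ := rfl
  rw [this, smul_smul, smul_smul]
  congr 2
  group

/-- Two weights for the same group give proportional integrals of invariant functions. -/
theorem IsWeight.lintegral_eq {μ : Measure X} [MeasurableConstSMul G X] [SMulInvariantMeasure G X μ]
    {Γ : Subgroup G} [Countable Γ] {w w' : X → ℝ≥0∞} {c c' : ℝ≥0∞}
    (hw : IsWeight Γ w c) (hw' : IsWeight Γ w' c') {F : X → ℝ≥0∞} (hF : Measurable F)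
    (hinv : ∀ γ ∈ Γ, ∀ x, F (γ • x) = F x) :
    c' * ∫⁻ x, F x * w x ∂μ = c * ∫⁻ x, F x * w' x ∂μ := by
  have key : ∀ γ : Γ, ∫⁻ x, F x * w x * w' ((γ : G) • x) ∂μ
      = ∫⁻ x, F x * w' x * w ((γ : G)⁻¹ • x) ∂μ := by
    intro γ
    have h1 := (measurePreserving_smul (γ : G) μ).lintegral_comp
      (f := fun x => F x * w' x * w ((γ : G)⁻¹ • x))
      ((hF.mul hw'.measurable).mul (hw.measurable.comp (measurable_const_smul _)))
    rw [← h1]
    refine lintegral_congr fun x => ?_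
    rw [hinv γ γ.2, inv_smul_smul]
    ring
  calc c' * ∫⁻ x, F x * w x ∂μ = ∫⁻ x, F x * w x * c' ∂μ := by
        rw [lintegral_mul_const c' (f := fun x => F x * w x) (hF.mul hw.measurable), mul_comm]
    _ = ∫⁻ x, ∑' γ : Γ, F x * w x * w' ((γ : G) • x) ∂μ := by
        refine lintegral_congr fun x => ?_
        rw [ENNReal.tsum_mul_left, hw'.tsum_eq]
    _ = ∑' γ : Γ, ∫⁻ x, F x * w x * w' ((γ : G) • x) ∂μ := by
        refine lintegral_tsum fun γ => ?_
        exact ((hF.mul hw.measurable).mul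
          (hw'.measurable.comp (measurable_const_smul _))).aemeasurable
    _ = ∑' γ : Γ, ∫⁻ x, F x * w' x * w ((γ : G)⁻¹ • x) ∂μ := by
        exact tsum_congr key
    _ = ∫⁻ x, ∑' γ : Γ, F x * w' x * w ((γ : G)⁻¹ • x) ∂μ := by
        refine (lintegral_tsum fun γ => ?_).symm
        exact ((hF.mul hw'.measurable).mul
          (hw.measurable.comp (measurable_const_smul _))).aemeasurable
    _ = ∫⁻ x, F x * w' x * c ∂μ := by
        refine lintegral_congr fun x => ?_
        rw [ENNReal.tsum_mul_left, hw.tsum_inv]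
    _ = c * ∫⁻ x, F x * w' x ∂μ := by
        rw [lintegral_mul_const c (f := fun x => F x * w' x) (hF.mul hw'.measurable), mul_comm]

/-- A weight for a subgroup of finite index is a weight for the overgroup. -/
theorem IsWeight.of_le {Λ Γ : Subgroup G} (h : Λ ≤ Γ) {w : X → ℝ≥0∞} {c : ℝ≥0∞}
    [hfin : (Λ.subgroupOf Γ).FiniteIndex] (hw : IsWeight Λ w c) :
    IsWeight Γ w ((Λ.relIndex Γ : ℕ) * c) := by
  refine ⟨hw.measurable, fun x => ?_⟩
  rw [← (Equiv.inv Γ).tsum_eq]
  rw [tsum_eq_tsum_out_mul (Λ.subgroupOf Γ)]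
  have : ∀ q : Γ ⧸ Λ.subgroupOf Γ, ∑' h : Λ.subgroupOf Γ,
      w (((Equiv.inv Γ) (q.out * (h : Γ)) : G) • x) = c := by
    intro q
    rw [← hw.tsum_inv (((q.out : Γ) : G)⁻¹ • x)]
    rw [← (Subgroup.subgroupOfEquivOfLe h).toEquiv.tsum_eq]
    refine tsum_congr fun γ => ?_
    rw [smul_smul]
    simp
  rw [tsum_congr this, ENNReal.tsum_const]
  congr 1
  rw [Subgroup.relIndex, Subgroup.index]
  have : Finite (Γ ⧸ Λ.subgroupOf Γ) := Subgroup.finite_quotient_of_finiteIndex
  rw [ENat.card_eq_coe_natCard]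
  simp

/-- Restriction of a weight to a subgroup of finite index. -/
theorem IsWeight.exists_of_le {μ : Measure X} [MeasurableConstSMul G X] [SMulInvariantMeasure G X μ]
    {Λ Γ : Subgroup G} (h : Λ ≤ Γ) {w : X → ℝ≥0∞} {c : ℝ≥0∞}
    [hfin : (Λ.subgroupOf Γ).FiniteIndex] (hw : IsWeight Γ w c) :
    ∃ w' : X → ℝ≥0∞, IsWeight Λ w' c ∧ ∫⁻ x, w' x ∂μ = (Λ.relIndex Γ : ℕ) * ∫⁻ x, w x ∂μ := by
  have : Finite (Γ ⧸ Λ.subgroupOf Γ) := Subgroup.finite_quotient_of_finiteIndex
  refine ⟨fun x => ∑' q : Γ ⧸ Λ.subgroupOf Γ, w (((q.out : Γ) : G) • x), ⟨?_, ?_⟩, ?_⟩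
  · exact Measurable.tsum fun q => hw.measurable.comp (measurable_const_smul _)
  · intro x
    rw [ENNReal.tsum_comm, ← hw.tsum_eq x, tsum_eq_tsum_out_mul (Λ.subgroupOf Γ)]
    refine tsum_congr fun q => ?_
    rw [← (Subgroup.subgroupOfEquivOfLe h).toEquiv.tsum_eq]
    refine tsum_congr fun γ => ?_
    rw [smul_smul]
    rfl
  · have h1 : ∀ q : Γ ⧸ Λ.subgroupOf Γ,
        AEMeasurable (fun x => w (((q.out : Γ) : G) • x)) μ := fun q =>
      (hw.measurable.comp (measurable_const_smul _)).aemeasurable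
    rw [lintegral_tsum h1]
    have : ∀ q : Γ ⧸ Λ.subgroupOf Γ, ∫⁻ x, w (((q.out : Γ) : G) • x) ∂μ = ∫⁻ x, w x ∂μ := by
      intro q
      exact (measurePreserving_smul ((q.out : Γ) : G) μ).lintegral_comp hw.measurable
    rw [tsum_congr this, ENNReal.tsum_const]
    congr 1
    rw [Subgroup.relIndex, Subgroup.index]
    rw [ENat.card_eq_coe_natCard]
    simp

/-- The σ-algebra of `Γ`-invariant measurable sets. -/
def invAlg (Γ : Subgroup G) : MeasurableSpace X where
  MeasurableSet' s := MeasurableSet s ∧ ∀ γ ∈ Γ, ∀ x, γ • x ∈ s ↔ x ∈ s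
  measurableSet_empty := ⟨MeasurableSet.empty, by simp⟩
  measurableSet_compl := fun s hs => ⟨hs.1.compl, fun γ hγ x => by
    simp only [Set.mem_compl_iff, hs.2 γ hγ x]⟩
  measurableSet_iUnion := fun f hf => ⟨MeasurableSet.iUnion fun i => (hf i).1, fun γ hγ x => by
    simp only [Set.mem_iUnion]
    exact exists_congr fun i => (hf i).2 γ hγ x⟩

theorem invAlg_le (Γ : Subgroup G) : invAlg (X := X) Γ ≤ ‹MeasurableSpace X› := fun _ hs => hs.1

theorem measurable_invAlg {Γ : Subgroup G} {E : Type*} [MeasurableSpace E] {F : X → E}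
    (hF : Measurable F) (hinv : ∀ γ ∈ Γ, ∀ x, F (γ • x) = F x) :
    Measurable[invAlg Γ] F := by
  intro s hs
  refine ⟨hF hs, fun γ hγ x => ?_⟩
  simp only [Set.mem_preimage, hinv γ hγ x]

theorem IsWeight.trim_eq {μ : Measure X} [MeasurableConstSMul G X] [SMulInvariantMeasure G X μ]
    {Γ : Subgroup G} [Countable Γ] {w w' : X → ℝ≥0∞} {c c' : ℝ≥0∞}
    (hw : IsWeight Γ w c) (hw' : IsWeight Γ w' c') :
    (c' • μ.withDensity w).trim (invAlg_le (X := X) Γ) =
      (c • μ.withDensity w').trim (invAlg_le (X := X) Γ) := by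
  refine @Measure.ext _ (invAlg Γ) _ _ fun s hs => ?_
  rw [trim_measurableSet_eq _ hs, trim_measurableSet_eq _ hs]
  have h := hw.lintegral_eq (μ := μ) hw' (F := s.indicator 1) (measurable_one.indicator hs.1) ?_
  · simp only [Measure.smul_apply, smul_eq_mul]
    rw [withDensity_apply _ hs.1, withDensity_apply _ hs.1]
    have e : ∀ v : X → ℝ≥0∞, ∫⁻ x, s.indicator 1 x * v x ∂μ = ∫⁻ x in s, v x ∂μ := by
      intro v
      rw [← lintegral_indicator hs.1]
      refine lintegral_congr fun x => ?_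
      by_cases hx : x ∈ s <;> simp [hx]
    rw [← e, ← e]
    exact h
  · intro γ hγ x
    have := hs.2 γ hγ x
    by_cases hx : x ∈ s
    · simp [hx, this.2 hx]
    · have h' : γ • x ∉ s := fun h => hx (this.1 h)
      simp [hx, h']

/-- Two weights for the same group give proportional Bochner integrals of invariant functions. -/
theorem IsWeight.integral_eq {μ : Measure X} [MeasurableConstSMul G X] [SMulInvariantMeasure G X μ]
    {Γ : Subgroup G} [Countable Γ] {w w' : X → ℝ≥0∞} {c c' : ℝ≥0∞}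
    (hw : IsWeight Γ w c) (hw' : IsWeight Γ w' c') {F : X → ℂ} (hF : Measurable F)
    (hinv : ∀ γ ∈ Γ, ∀ x, F (γ • x) = F x) :
    c'.toReal • ∫ x, F x ∂(μ.withDensity w) = c.toReal • ∫ x, F x ∂(μ.withDensity w') := by
  rw [← integral_smul_measure, ← integral_smul_measure]
  have hm := (measurable_invAlg hF hinv).stronglyMeasurable
  rw [integral_trim (invAlg_le Γ) hm, integral_trim (invAlg_le Γ) hm, hw.trim_eq hw']

end General

end Fermat.Agent.Petersson
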